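/-
TW-FLAT, row 321 (FLAT-ORD-CONTAIN): interface statements and notation of the reducible case.

* `Ord.Inj0`, `Ord.MultAvg`, `Ord.Ray k` : the three order-calculus inputs ((INJ-0), (MULT), (RAY)
  of the route) as named `Prop`s; the consumers of this directory take them as hypotheses.
* `inlV`, `epsV` : the constant and the `ε`-embedding `k² → k[ε]²`; `barAct rb` the action of `GQ`
  on `k²` through `rb`.
-/
import Mathlib
import Fermat.Agent.TW.Flat.Defs
import Fermat.Agent.TW.Flat.Interfaces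
import Fermat.Agent.Lib.FinFlat.Conn
import Fermat.Agent.Lib.FinFlat.POps
import Fermat.Agent.TW.Local.StrictOrd

set_option autoImplicit false
set_option linter.unusedSectionVars false

namespace Fermat.Agent.TW.Flat.Ord

open Fermat.Agent.S53 Fermat.Agent.TW Fermat.Agent.Lib.FinFlat Fermat.Agent.TW.Flat
open Fermat.Agent.TW.StrictOrd Fermat.Agent.TW.TangentLift

local notation "Qb" => AlgebraicClosure ℚ

/-- (INJ-0): for `p > 2` the connected component of an order on a `p`-torsion group has no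
nonzero point fixed by inertia. -/
def Inj0 : Prop :=
  ∀ (p : ℕ) [Fact p.Prime], p ≠ 2 → ∀ P : ValuationSubring Qb, P.LiesOverPrime p →
  ∀ (Γ : Subgroup GQ) (V : Type) [AddCommGroup V] [Finite V] (act : GQ → V → V)
    (B : Subalgebra P (V → Qb)) (hB : IsPOrder P Γ act B),
    P.inertiaSubgroupIn ℚ ≤ Γ → (∀ v : V, p • v = 0) →
    (∀ σ ∈ P.inertiaSubgroupIn ℚ, act σ 0 = 0) →
    ∀ v ∈ hB.conn, (∀ σ ∈ P.inertiaSubgroupIn ℚ, act σ v = v) → v = 0

/-- (MULT): if inertia acts on the `p`-torsion group `V` through the cyclotomic character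
(`σ v = a • v` whenever `σ` raises the `p`-th roots of unity to the power `a`), then the average
of every element of an order on `V` is integral. -/
def MultAvg : Prop :=
  ∀ (p : ℕ) [Fact p.Prime], p ≠ 2 → ∀ P : ValuationSubring Qb, P.LiesOverPrime p →
  ∀ (Γ : Subgroup GQ) (V : Type) [AddCommGroup V] [Fintype V] (act : GQ → V → V)
    (B : Subalgebra P (V → Qb)), IsPOrder P Γ act B →
    P.inertiaSubgroupIn ℚ ≤ Γ → (∀ v : V, p • v = 0) →
    (∀ σ ∈ P.inertiaSubgroupIn ℚ, ∀ a : ℕ, (∀ μ : Qb, μ ^ p = 1 → σ μ = μ ^ a) →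
      ∀ v, act σ v = a • v) →
    ∀ f ∈ B, ((Fintype.card V : ℕ) : Qb)⁻¹ * ∑ v, f v ∈ P

/-- (RAY): Raynaud's bound for a line.  An order on the additive group of `k`, stable under
`k^×`, on which the decomposition group acts through a character `χ`: then `χ` is trivial on
inertia or equal to the cyclotomic character on inertia. -/
def Ray (k : Type) [Field k] : Prop :=
  ∀ (p : ℕ) [Fact p.Prime], p ≠ 2 → (p : k) = 0 → ∀ P : ValuationSubring Qb,
    P.LiesOverPrime p →
  ∀ (Γ : Subgroup GQ) (act : GQ → k → k) (B : Subalgebra P (k → Qb)), IsPOrder P Γ act B →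
    P.decompositionSubgroup ℚ ≤ Γ →
    ∀ χ : GQ → k, (∀ σ ∈ P.decompositionSubgroup ℚ, ∀ t : k, act σ t = χ σ * t) →
    (∀ a : k, a ≠ 0 → ∀ f ∈ B, (fun t => f (a * t)) ∈ B) →
    (∀ σ ∈ P.inertiaSubgroupIn ℚ, χ σ = 1) ∨
    (∀ σ ∈ P.inertiaSubgroupIn ℚ, ∀ a : ℕ, (∀ μ : Qb, μ ^ p = 1 → σ μ = μ ^ a) →
      χ σ = (a : k))

noncomputable section

variable {k : Type} [Field k]

/-- The dual numbers over a finite field are finite. -/
instance finiteDualNumber [Finite k] : Finite (DualNumber k) := inferInstanceAs (Finite (k × k))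

/-- The constant embedding `k² → k[ε]²`. -/
def inlV (v : Fin 2 → k) : Fin 2 → DualNumber k := fun i => TrivSqZeroExt.inl (v i)

/-- The embedding `k² → k[ε]²`, `v ↦ ε v`. -/
def epsV (v : Fin 2 → k) : Fin 2 → DualNumber k := fun i => TrivSqZeroExt.inr (v i)

/-- The action of `GQ` on `k²` through `rb`. -/
def barAct (rb : GQ →* Mat2 k) (σ : GQ) (v : Fin 2 → k) : Fin 2 → k := (rb σ).mulVec v

theorem barAct_apply (rb : GQ →* Mat2 k) (σ : GQ) (v : Fin 2 → k) :
    barAct rb σ v = (rb σ).mulVec v := rfl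

@[simp] theorem fstV_inlV (v : Fin 2 → k) : fstV (inlV v) = v := by
  funext i; simp [fstV, inlV]

@[simp] theorem sndV_inlV (v : Fin 2 → k) : sndV (inlV v) = 0 := by
  funext i; simp [sndV, inlV]

@[simp] theorem fstV_epsV (v : Fin 2 → k) : fstV (epsV v) = 0 := by
  funext i; simp [fstV, epsV]

@[simp] theorem sndV_epsV (v : Fin 2 → k) : sndV (epsV v) = v := by
  funext i; simp [sndV, epsV]

theorem fstV_add (v w : Fin 2 → DualNumber k) : fstV (v + w) = fstV v + fstV w := by
  funext i; simp [fstV]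

theorem sndV_add (v w : Fin 2 → DualNumber k) : sndV (v + w) = sndV v + sndV w := by
  funext i; simp [sndV]

theorem fstV_sub (v w : Fin 2 → DualNumber k) : fstV (v - w) = fstV v - fstV w := by
  funext i; simp [fstV]

theorem sndV_sub (v w : Fin 2 → DualNumber k) : sndV (v - w) = sndV v - sndV w := by
  funext i; simp [sndV]

@[simp] theorem fstV_zero : fstV (0 : Fin 2 → DualNumber k) = 0 := by
  funext i; simp [fstV]

@[simp] theorem sndV_zero : sndV (0 : Fin 2 → DualNumber k) = 0 := by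
  funext i; simp [sndV]

/-- A vector over `k[ε]` is determined by its two components. -/
theorem ext_fst_snd {v w : Fin 2 → DualNumber k} (h1 : fstV v = fstV w) (h2 : sndV v = sndV w) :
    v = w := by
  funext i
  exact TrivSqZeroExt.ext (congrFun h1 i) (congrFun h2 i)

theorem eq_inlV_add_epsV (v : Fin 2 → DualNumber k) : v = inlV (fstV v) + epsV (sndV v) := by
  apply ext_fst_snd
  · rw [fstV_add, fstV_inlV, fstV_epsV, add_zero]
  · rw [sndV_add, sndV_inlV, sndV_epsV, zero_add]

theorem inlV_add (v w : Fin 2 → k) : inlV (v + w) = inlV v + inlV w := by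
  apply ext_fst_snd
  · rw [fstV_add, fstV_inlV, fstV_inlV, fstV_inlV]
  · rw [sndV_add, sndV_inlV, sndV_inlV, sndV_inlV, add_zero]

theorem epsV_add (v w : Fin 2 → k) : epsV (v + w) = epsV v + epsV w := by
  apply ext_fst_snd
  · rw [fstV_add, fstV_epsV, fstV_epsV, fstV_epsV, add_zero]
  · rw [sndV_add, sndV_epsV, sndV_epsV, sndV_epsV]

theorem epsV_injective : Function.Injective (epsV : (Fin 2 → k) → Fin 2 → DualNumber k) := by
  intro v w h
  have := congrArg sndV h
  rwa [sndV_epsV, sndV_epsV] at this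

theorem inlV_injective : Function.Injective (inlV : (Fin 2 → k) → Fin 2 → DualNumber k) := by
  intro v w h
  have := congrArg fstV h
  rwa [fstV_inlV, fstV_inlV] at this

/-- `fstV` and `sndV` of the lifted action. -/
theorem fstV_liftAct (rb : GQ →* Mat2 k) (c : GQ → Mat2 k) (σ : GQ) (v : Fin 2 → DualNumber k) :
    fstV (liftAct rb c σ v) = (rb σ).mulVec (fstV v) := by
  rw [liftAct, fstV_mulVec, fstM_liftMat]

theorem sndV_liftAct (rb : GQ →* Mat2 k) (c : GQ → Mat2 k) (σ : GQ) (v : Fin 2 → DualNumber k) :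
    sndV (liftAct rb c σ v) = (rb σ).mulVec (sndV v) + (c σ * rb σ).mulVec (fstV v) := by
  rw [liftAct, sndV_mulVec, fstM_liftMat, sndM_liftMat]

theorem liftAct_epsV (rb : GQ →* Mat2 k) (c : GQ → Mat2 k) (σ : GQ) (v : Fin 2 → k) :
    liftAct rb c σ (epsV v) = epsV ((rb σ).mulVec v) := by
  apply ext_fst_snd
  · rw [fstV_liftAct, fstV_epsV, fstV_epsV, Matrix.mulVec_zero]
  · rw [sndV_liftAct, sndV_epsV, fstV_epsV, sndV_epsV, Matrix.mulVec_zero, add_zero]

theorem liftAct_add (rb : GQ →* Mat2 k) (c : GQ → Mat2 k) (σ : GQ) (v w : Fin 2 → DualNumber k) :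
    liftAct rb c σ (v + w) = liftAct rb c σ v + liftAct rb c σ w := by
  rw [liftAct, liftAct, liftAct, Matrix.mulVec_add]

theorem liftAct_zero (rb : GQ →* Mat2 k) (c : GQ → Mat2 k) (σ : GQ) :
    liftAct rb c σ 0 = 0 := by
  rw [liftAct, Matrix.mulVec_zero]

theorem liftAct_smul (rb : GQ →* Mat2 k) (c : GQ → Mat2 k) (σ : GQ) (a : DualNumber k)
    (v : Fin 2 → DualNumber k) : liftAct rb c σ (a • v) = a • liftAct rb c σ v := by
  rw [liftAct, liftAct, Matrix.mulVec_smul]

theorem fstV_smul_inl (a : k) (v : Fin 2 → DualNumber k) :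
    fstV ((TrivSqZeroExt.inl a : DualNumber k) • v) = a • fstV v := by
  rw [fstV_smul, TrivSqZeroExt.fst_inl]

theorem smul_inlV (a : DualNumber k) (v : Fin 2 → k) :
    a • inlV v = inlV (a.fst • v) + epsV (a.snd • v) := by
  apply ext_fst_snd
  · rw [fstV_smul, fstV_add, fstV_inlV, fstV_inlV, fstV_epsV, add_zero]
  · rw [sndV_smul, sndV_add, sndV_inlV, sndV_inlV, sndV_epsV, fstV_inlV, smul_zero, zero_add]

theorem smul_epsV (a : DualNumber k) (v : Fin 2 → k) : a • epsV v = epsV (a.fst • v) := by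
  apply ext_fst_snd
  · rw [fstV_smul, fstV_epsV, fstV_epsV, smul_zero]
  · rw [sndV_smul, sndV_epsV, sndV_epsV, fstV_epsV, smul_zero, add_zero]

end

end Fermat.Agent.TW.Flat.Ord
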