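/-
TW-FLAT, row 321 (FLAT-ORD-CONTAIN): linear algebra on `k²` and `k[ε]²` used in the reducible case.

* rank-one matrices: coordinates, trace, `det (1 + N)`;
* `ordShape_mulVec_eq_det` : inertia acts on the ordinary line through the determinant;
* `exists_dotProduct_eq_one`, `exists_vperp_dotProduct_eq_one` : dual vectors;
* `eq_top_of_two_indep` : a `k`-stable subgroup of `k²` containing two independent vectors is
  everything.
-/
import Mathlib
import Fermat.Agent.TW.Flat.Ord.Defs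
import Fermat.Agent.TW.Flat.Local.Basic

set_option autoImplicit false
set_option linter.unusedSectionVars false

namespace Fermat.Agent.TW.Flat.Ord

open Fermat.Agent.S53 Fermat.Agent.TW Fermat.Agent.Lib.FinFlat Fermat.Agent.TW.Flat
open Fermat.Agent.TW.StrictOrd Fermat.Agent.TW.TangentLift

local notation "Qb" => AlgebraicClosure ℚ

variable {k : Type} [Field k]

/-- Coordinates of a matrix with image in the line `k·v0`. -/
theorem rank_one_coords (N : Mat2 k) (v0 : Fin 2 → k)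
    (hN : ∀ w : Fin 2 → k, ∃ a : k, N.mulVec w = a • v0) :
    ∃ m : Fin 2 → k, ∀ i j, N i j = m j * v0 i := by
  choose m hm using fun j : Fin 2 => hN (Pi.single j 1)
  refine ⟨m, fun i j => ?_⟩
  have h1 := congrFun (hm j) i
  rw [Matrix.mulVec_single_one] at h1
  simpa using h1

/-- The trace of a matrix with image in `k·v0` is its eigenvalue on `v0`. -/
theorem trace_of_rank_one {N : Mat2 k} {v0 : Fin 2 → k} (hv0 : v0 ≠ 0)
    (hN : ∀ w : Fin 2 → k, ∃ a : k, N.mulVec w = a • v0) {t : k} (ht : N.mulVec v0 = t • v0) :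
    N.trace = t := by
  obtain ⟨m, hm⟩ := rank_one_coords N v0 hN
  have h1 : N.mulVec v0 = (m 0 * v0 0 + m 1 * v0 1) • v0 := by
    funext i
    simp only [Matrix.mulVec, dotProduct, Fin.sum_univ_two, hm, Pi.smul_apply, smul_eq_mul]
    ring
  have h2 : (m 0 * v0 0 + m 1 * v0 1 - t) • v0 = 0 := by rw [sub_smul, ← h1, ← ht, sub_self]
  rcases smul_eq_zero.mp h2 with h3 | h3
  · rw [Matrix.trace_fin_two, hm, hm]
    linear_combination h3
  · exact absurd h3 hv0

/-- `det (1 + N) = 1 + t` for a matrix `N` with image in `k·v0` and `N v0 = t v0`. -/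
theorem det_one_add_of_rank_one {N : Mat2 k} {v0 : Fin 2 → k} (hv0 : v0 ≠ 0)
    (hN : ∀ w : Fin 2 → k, ∃ a : k, N.mulVec w = a • v0) {t : k} (ht : N.mulVec v0 = t • v0) :
    (1 + N).det = 1 + t := by
  obtain ⟨m, hm⟩ := rank_one_coords N v0 hN
  have h1 := trace_of_rank_one hv0 hN ht
  rw [Matrix.trace_fin_two, hm, hm] at h1
  rw [Matrix.det_fin_two]
  simp only [Matrix.add_apply, Matrix.one_apply_eq, Matrix.one_apply_ne, ne_eq, Fin.zero_eq_one_iff,
    Fin.one_eq_zero_iff, OfNat.ofNat_ne_one, not_false_eq_true, zero_add, hm]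
  linear_combination h1

/-- Inertia acts on the ordinary line through the determinant. -/
theorem ordShape_mulVec_eq_det {rb : GQ →* Mat2 k} {P : ValuationSubring Qb} {v0 : Fin 2 → k}
    (hv0 : OrdShape rb P v0) {σ : GQ} (hσ : σ ∈ P.inertiaSubgroupIn ℚ) :
    (rb σ).mulVec v0 = (rb σ).det • v0 := by
  obtain ⟨x, hx⟩ := hv0.2.1 σ (Loc.Basic.inertia_le_decomp P hσ)
  have hN : ∀ w : Fin 2 → k, ∃ a : k, (rb σ - 1).mulVec w = a • v0 := by
    intro w
    obtain ⟨a, ha⟩ := hv0.2.2 σ hσ w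
    exact ⟨a, by rw [Matrix.sub_mulVec, Matrix.one_mulVec, ha]⟩
  have ht : (rb σ - 1).mulVec v0 = (x - 1) • v0 := by
    rw [Matrix.sub_mulVec, Matrix.one_mulVec, hx, sub_smul, one_smul]
  have h1 := det_one_add_of_rank_one hv0.1 hN ht
  rw [add_sub_cancel] at h1
  rw [h1, hx]
  congr 1
  ring

/-- A vector pairing to `1` with a non-zero vector. -/
theorem exists_dotProduct_eq_one {v : Fin 2 → k} (hv : v ≠ 0) : ∃ u : Fin 2 → k, u ⬝ᵥ v = 1 := by
  have : ∃ i, v i ≠ 0 := by
    by_contra hcon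
    simp only [not_exists, not_not] at hcon
    exact hv (funext hcon)
  obtain ⟨i, hi⟩ := this
  refine ⟨Pi.single i (v i)⁻¹, ?_⟩
  rw [single_dotProduct, inv_mul_cancel₀ hi]

/-- A vector `e` with `det (v, e) = 1`. -/
theorem exists_vperp_dotProduct_eq_one {v : Fin 2 → k} (hv : v ≠ 0) :
    ∃ e : Fin 2 → k, vperp v ⬝ᵥ e = 1 := by
  have hv' : vperp v ≠ 0 := by
    intro h
    apply hv
    funext i
    fin_cases i
    · have := congrFun h 1
      simpa [vperp] using this
    · have := congrFun h 0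
      simpa [vperp] using this
  obtain ⟨u, hu⟩ := exists_dotProduct_eq_one hv'
  exact ⟨u, by rw [dotProduct_comm]; exact hu⟩

/-- Two independent vectors generate `k²`. -/
theorem exists_eq_smul_add_smul {v e : Fin 2 → k} (he : vperp v ⬝ᵥ e ≠ 0) (w : Fin 2 → k) :
    ∃ a b : k, w = a • v + b • e := by
  have hd : v 0 * e 1 - v 1 * e 0 ≠ 0 := by
    have : vperp v ⬝ᵥ e = v 0 * e 1 - v 1 * e 0 := by
      simp only [dotProduct, Fin.sum_univ_two, vperp_zero, vperp_one]
      ring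
    rwa [this] at he
  refine ⟨(w 0 * e 1 - w 1 * e 0) / (v 0 * e 1 - v 1 * e 0),
    (v 0 * w 1 - v 1 * w 0) / (v 0 * e 1 - v 1 * e 0), ?_⟩
  funext i
  fin_cases i
  · show w 0 = (w 0 * e 1 - w 1 * e 0) / (v 0 * e 1 - v 1 * e 0) * v 0 +
      (v 0 * w 1 - v 1 * w 0) / (v 0 * e 1 - v 1 * e 0) * e 0
    rw [div_mul_eq_mul_div, div_mul_eq_mul_div, ← add_div, eq_div_iff hd]
    ring
  · show w 1 = (w 0 * e 1 - w 1 * e 0) / (v 0 * e 1 - v 1 * e 0) * v 1 +
      (v 0 * w 1 - v 1 * w 0) / (v 0 * e 1 - v 1 * e 0) * e 1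
    rw [div_mul_eq_mul_div, div_mul_eq_mul_div, ← add_div, eq_div_iff hd]
    ring

/-- `fstV` of a multiple by a natural number. -/
theorem fstV_nsmul (n : ℕ) (v : Fin 2 → DualNumber k) : fstV (n • v) = n • fstV v := by
  funext i
  simp [fstV]

theorem sndV_nsmul (n : ℕ) (v : Fin 2 → DualNumber k) : sndV (n • v) = n • sndV v := by
  funext i
  simp [sndV]

/-- The lifted action on a constant vector. -/
theorem liftAct_inlV (rb : GQ →* Mat2 k) (c : GQ → Mat2 k) (σ : GQ) (u : Fin 2 → k) :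
    liftAct rb c σ (inlV u) = inlV ((rb σ).mulVec u) + epsV ((c σ * rb σ).mulVec u) := by
  apply ext_fst_snd
  · rw [fstV_liftAct, fstV_inlV, fstV_add, fstV_inlV, fstV_epsV, add_zero]
  · rw [sndV_liftAct, sndV_inlV, fstV_inlV, Matrix.mulVec_zero, zero_add, sndV_add, sndV_inlV,
      sndV_epsV, zero_add]

/-- `k[ε]²` has characteristic `p`. -/
theorem nsmul_dual_eq_zero {p : ℕ} (hp : (p : k) = 0) (v : Fin 2 → DualNumber k) : p • v = 0 := by
  apply ext_fst_snd
  · rw [fstV_nsmul, fstV_zero, ← Nat.cast_smul_eq_nsmul k, hp, zero_smul]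
  · rw [sndV_nsmul, sndV_zero, ← Nat.cast_smul_eq_nsmul k, hp, zero_smul]

theorem nsmul_vec_eq_zero {p : ℕ} (hp : (p : k) = 0) (v : Fin 2 → k) : p • v = 0 := by
  rw [← Nat.cast_smul_eq_nsmul k, hp, zero_smul]

end Fermat.Agent.TW.Flat.Ord
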