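/-
TW-FLAT, row 321 (FLAT-ORD-CONTAIN): the ordinary flat condition from the shape of the connected
component.

`isFlOrd_of_conn` : if the connected component of an order on `k[ε]²` (action of the lift of `c`)
is the free rank-one module `k[ε]·v0` over the ordinary line, then `c|D` is ordinary flat
(`IsFlOrd`) and `rb` is peu ramifié.
-/
import Mathlib
import Fermat.Agent.TW.Flat.Ord.Lin
import Fermat.Agent.Lib.FinFlat.Mult
import Fermat.Agent.PT.G.CycloField

set_option autoImplicit false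
set_option linter.unusedSectionVars false

namespace Fermat.Agent.TW.Flat.Ord

open Fermat.Agent.S53 Fermat.Agent.TW Fermat.Agent.Lib.FinFlat Fermat.Agent.TW.Flat
open Fermat.Agent.TW.StrictOrd Fermat.Agent.TW.TangentLift

local notation "Qb" => AlgebraicClosure ℚ

variable {k : Type} [Field k]

/-- The additive map `v ↦ (u ⬝ fstV v) • E` on `k[ε]²`. -/
def fstHom (u : Fin 2 → k) (E : Mat2 k) : (Fin 2 → DualNumber k) →+ Mat2 k :=
  AddMonoidHom.mk' (fun v => (u ⬝ᵥ fstV v) • E) (fun v w => by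
    rw [fstV_add, dotProduct_add, add_smul])

/-- The additive map `v ↦ (u ⬝ sndV v) • E` on `k[ε]²`. -/
def sndHom (u : Fin 2 → k) (E : Mat2 k) : (Fin 2 → DualNumber k) →+ Mat2 k :=
  AddMonoidHom.mk' (fun v => (u ⬝ᵥ sndV v) • E) (fun v w => by
    rw [sndV_add, dotProduct_add, add_smul])

theorem fstHom_apply (u : Fin 2 → k) (E : Mat2 k) (v : Fin 2 → DualNumber k) :
    fstHom u E v = (u ⬝ᵥ fstV v) • E := rfl

theorem sndHom_apply (u : Fin 2 → k) (E : Mat2 k) (v : Fin 2 → DualNumber k) :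
    sndHom u E v = (u ⬝ᵥ sndV v) • E := rfl

/-- **The ordinary flat condition from the connected component.** -/
theorem isFlOrd_of_conn [Finite k] {rb : GQ →* Mat2 k} {p : ℕ} [Fact p.Prime] (hp2 : p ≠ 2)
    (h : ResidualHyp rb p) {P : ValuationSubring Qb} (hP : P.LiesOverPrime p)
    {c : GQ → Mat2 k} (htr : ∀ σ, (c σ).trace = 0)
    {B : Subalgebra P ((Fin 2 → DualNumber k) → Qb)} (hB : IsPOrder P ⊤ (liftAct rb c) B)
    {v0 : Fin 2 → k} (hv0 : OrdShape rb P v0)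
    (hconn : ∀ w, w ∈ hB.conn ↔ ∃ a : DualNumber k, w = a • inlV v0) :
    IsFlOrd P p v0 (resOn (P.decompositionSubgroup ℚ) c) ∧ PeuRam rb P p := by
  have hp : p.Prime := Fact.out
  have hID := Loc.Basic.inertia_le_decomp P
  -- (i) the line is stable under `c σ`, `σ ∈ D`
  have h1 : ∀ σ ∈ P.decompositionSubgroup ℚ, ∃ a : k, (c σ).mulVec v0 = a • v0 := by
    intro σ hσ
    have hmem : liftAct rb c σ (inlV v0) ∈ hB.conn :=
      hB.act_mem_conn (Subgroup.mem_top σ)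
        (fun x hx => Fermat.Agent.PT.G.apply_mem_nonunits_of_mem_decompositionSubgroup P hσ hx)
        (liftAct_zero rb c σ) ((hconn _).2 ⟨1, (one_smul _ _).symm⟩)
    obtain ⟨a, ha⟩ := (hconn _).1 hmem
    have e1 := congrArg fstV ha
    have e2 := congrArg sndV ha
    rw [fstV_liftAct, fstV_inlV, fstV_smul, fstV_inlV] at e1
    rw [sndV_liftAct, sndV_inlV, fstV_inlV, Matrix.mulVec_zero, zero_add, sndV_smul, sndV_inlV,
      fstV_inlV, smul_zero, zero_add] at e2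
    have hx := eigen_ne_zero rb σ hv0.1 a.fst e1
    refine ⟨a.fst⁻¹ * a.snd, ?_⟩
    rw [← Matrix.mulVec_mulVec, e1, Matrix.mulVec_smul] at e2
    rw [mul_smul, ← e2, smul_smul, inv_mul_cancel₀ hx, one_smul]
  -- (ii) on inertia the image of `c σ` is in the line
  have h2 : ∀ σ ∈ P.inertiaSubgroupIn ℚ, ∀ w : Fin 2 → k, ∃ a : k, (c σ).mulVec w = a • v0 := by
    intro σ hσ w
    have hmem := hB.act_sub_mem_conn (Subgroup.mem_top σ)
      (fun x hx => Loc.Basic.inertiaRes P σ hσ x hx) (inlV ((rb σ⁻¹).mulVec w))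
    obtain ⟨a, ha⟩ := (hconn _).1 hmem
    have e2 := congrArg sndV ha
    rw [sndV_sub, sndV_liftAct, sndV_inlV, fstV_inlV, Matrix.mulVec_zero, zero_add, sub_zero,
      sndV_smul, sndV_inlV, fstV_inlV, smul_zero, zero_add, ← Matrix.mulVec_mulVec,
      Matrix.mulVec_mulVec w (rb σ) (rb σ⁻¹), rb_mul_rb_inv, Matrix.one_mulVec] at e2
    exact ⟨a.snd, e2⟩
  -- (iii) on inertia `c σ` kills the line
  have h3 : ∀ σ ∈ P.inertiaSubgroupIn ℚ, (c σ).mulVec v0 = 0 := by
    intro σ hσ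
    obtain ⟨t, ht⟩ := h1 σ (hID hσ)
    have h' := trace_of_rank_one hv0.1 (h2 σ hσ) ht
    rw [htr σ] at h'
    rw [ht, ← h', zero_smul]
  -- (iv) inertia acts on the connected component through the cyclotomic character
  have h4 : ∀ σ ∈ P.inertiaSubgroupIn ℚ, ∀ a : ℕ, (∀ μ : Qb, μ ^ p = 1 → σ μ = μ ^ a) →
      ∀ w ∈ hB.conn, liftAct rb c σ w = a • w := by
    intro σ hσ a ha w hw
    obtain ⟨b, rfl⟩ := (hconn w).1 hw
    have hdet : (rb σ).mulVec v0 = (a : k) • v0 := by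
      rw [ordShape_mulVec_eq_det hv0 hσ, h.detCyc σ a ha]
    have e : liftAct rb c σ (inlV v0) = a • inlV v0 := by
      apply ext_fst_snd
      · rw [fstV_liftAct, fstV_inlV, hdet, fstV_nsmul, fstV_inlV, Nat.cast_smul_eq_nsmul]
      · rw [sndV_liftAct, sndV_inlV, fstV_inlV, Matrix.mulVec_zero, zero_add,
          ← Matrix.mulVec_mulVec, hdet, Matrix.mulVec_smul, h3 σ hσ, smul_zero, sndV_nsmul,
          sndV_inlV, smul_zero]
    rw [liftAct_smul, e, smul_comm]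
  -- the order for the inertia group and its unit witnesses
  have hBI : IsPOrder P (P.inertiaSubgroupIn ℚ) (liftAct rb c) B := hB.mono le_top
  have hpV : ∀ v : Fin 2 → DualNumber k, p • v = 0 := nsmul_dual_eq_zero h.charP
  have hact : ∀ σ ∈ P.inertiaSubgroupIn ℚ, ∃ a : ℕ, (∀ w ∈ hBI.conn, liftAct rb c σ w = a • w) ∧
      ∀ ζ : Qb, ζ ^ p = 1 → σ ζ = ζ ^ a := by
    intro σ hσ
    obtain ⟨a, ha⟩ := exists_cyclo_exponent p σ
    exact ⟨a, fun w hw => h4 σ hσ a ha w hw, ha⟩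
  obtain ⟨e2, he2⟩ := exists_vperp_dotProduct_eq_one hv0.1
  obtain ⟨u0, hu0⟩ := exists_dotProduct_eq_one hv0.1
  have wit : ∀ (L : (Fin 2 → DualNumber k) →+ Mat2 k) (ψ : AddChar (Mat2 k) Qb),
      ∃ z : Qb, IsPUnit P z ∧ ∀ σ ∈ inertiaCyc P p,
        σ z = ψ (L (liftAct rb c σ (inlV e2) - inlV e2)) * z := by
    intro L ψ
    obtain ⟨z, hz, hz', hσz⟩ := hBI.exists_unit_witness hp hp2 hP le_rfl hpV
      (fun σ _ v w => liftAct_add rb c σ v w) hact (inlV e2)
      (ψ.compAddMonoidHom (L.comp hBI.conn.subtype))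
    refine ⟨z, ⟨?_, hz, inv_mem_of_notMem_nonunits hz hz'⟩, fun σ hσ => ?_⟩
    · rintro rfl
      exact hz' (nonunits_zero_mem P)
    · exact hσz σ hσ.1 hσ.2 (hBI.act_sub_mem_conn hσ.1
        (fun x hx => Loc.Basic.inertiaRes P σ hσ.1 x hx) _)
  -- the two computations on `I'`
  have hrbI' : ∀ σ ∈ inertiaCyc P p, ∃ x : k, rb σ - 1 = x • Emat v0 := by
    intro σ hσ
    have hdet : (rb σ).det = 1 := by
      have := h.detCyc σ 1 (fun μ hμ => by rw [pow_one]; exact hσ.2 μ hμ)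
      rwa [Nat.cast_one] at this
    have hN : ∀ w : Fin 2 → k, ∃ a : k, (rb σ - 1).mulVec w = a • v0 := by
      intro w
      obtain ⟨a, ha⟩ := hv0.2.2 σ hσ.1 w
      exact ⟨a, by rw [Matrix.sub_mulVec, Matrix.one_mulVec, ha]⟩
    have ht : (rb σ - 1).mulVec v0 = (0 : k) • v0 := by
      rw [Matrix.sub_mulVec, Matrix.one_mulVec, ordShape_mulVec_eq_det hv0 hσ.1, hdet, one_smul,
        sub_self, zero_smul]
    have htr' := trace_of_rank_one hv0.1 hN ht
    rw [zero_smul] at ht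
    exact exists_eq_smul_Emat hv0.1 _ htr' ht
  refine ⟨⟨fun σ => h1 σ σ.2, fun σ hσ w => h2 σ hσ w, fun ψ => ?_⟩, fun ψ => ?_⟩
  · obtain ⟨z, hz, hσz⟩ := wit (sndHom u0 (Emat v0)) ψ
    refine ⟨z, hz, fun σ hσ => ?_⟩
    rw [hσz σ hσ, resOn_apply]
    congr 2
    obtain ⟨β, hβ⟩ := exists_eq_smul_Emat hv0.1 (c σ) (htr σ) (h3 σ hσ.1)
    obtain ⟨x, hx⟩ := hrbI' σ hσ
    have hrb : (rb σ).mulVec e2 = e2 + x • v0 := by
      have : rb σ = 1 + x • Emat v0 := by rw [← hx]; abel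
      rw [this, Matrix.add_mulVec, Matrix.one_mulVec, Matrix.smul_mulVec, Emat_mulVec, he2,
        one_smul]
    rw [sndHom_apply, sndV_sub, sndV_liftAct, sndV_inlV, fstV_inlV, Matrix.mulVec_zero, zero_add,
      sub_zero, ← Matrix.mulVec_mulVec, hrb, Matrix.mulVec_add, Matrix.mulVec_smul, h3 σ hσ.1,
      smul_zero, add_zero]
    conv_lhs => rw [hβ, Matrix.smul_mulVec, Emat_mulVec, he2, one_smul, dotProduct_smul, hu0,
      smul_eq_mul, mul_one]
    exact hβ.symm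
  · obtain ⟨z, hz, hσz⟩ := wit (fstHom u0 (Emat v0)) ψ
    refine ⟨z, hz, fun σ hσ => ?_⟩
    rw [hσz σ hσ]
    congr 2
    obtain ⟨x, hx⟩ := hrbI' σ hσ
    have hrb : (rb σ).mulVec e2 - e2 = x • v0 := by
      have : rb σ = 1 + x • Emat v0 := by rw [← hx]; abel
      rw [this, Matrix.add_mulVec, Matrix.one_mulVec, Matrix.smul_mulVec, Emat_mulVec, he2,
        one_smul, add_sub_cancel_left]
    rw [fstHom_apply, fstV_sub, fstV_liftAct, fstV_inlV, hrb, dotProduct_smul, hu0, smul_eq_mul,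
      mul_one]
    exact hx.symm

end Fermat.Agent.TW.Flat.Ord
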