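/-
TW-FLAT, row 321 (FLAT-ORD-CONTAIN), sub-row (Rank).

Let `B` be a `k[ε]`-stable order on `k[ε]²` for the lifted action `liftAct rb c`, `W = conn` its
connected component, `k·v0` the ordinary line of `rb`, and assume `W ∩ ε k² = ε·k v0`.  Then `W`
is free of rank one over `k[ε]`, generated by a lift `v0 + ε u` of `v0`.

Proof: `W` is a `k[ε]`-submodule, stable under the decomposition group, with inertia acting
trivially on `k[ε]²/W`.  Its image `Wbar ⊆ k²` is a `D`-stable subspace with inertia acting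
trivially on `k²/Wbar`; `Wbar ≠ 0` (else `rb|I = 1`, but `det rb` is ramified), `Wbar ≠ k²`
(else `ε k² ⊆ W`), so `Wbar` is a line with the ordinary shape, hence `Wbar = k·v0` (`ordUnique`).
-/
import Mathlib
import Fermat.Agent.TW.Flat.Ord.Defs
import Fermat.Agent.TW.Flat.OrdUnique
import Fermat.Agent.TW.Flat.Local.Basic

set_option autoImplicit false

namespace Fermat.Agent.TW.Flat.Ord

open Fermat.Agent.S53 Fermat.Agent.TW Fermat.Agent.Lib.FinFlat Fermat.Agent.TW.Flat
open Fermat.Agent.TW.StrictOrd Fermat.Agent.TW.TangentLift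

local notation "Qb" => AlgebraicClosure ℚ

noncomputable section

variable {k : Type} [Field k]

namespace RankAux

/-- Two vectors of `k²`, the first nonzero: the second is a multiple of the first, or they
span. -/
theorem exists_smul_or_span (v w : Fin 2 → k) (hv : v ≠ 0) :
    (∃ a : k, w = a • v) ∨ ∀ x : Fin 2 → k, ∃ a b : k, x = a • v + b • w := by
  by_cases hdet : v 0 * w 1 - v 1 * w 0 = 0
  · left
    by_cases h0 : v 0 = 0
    · have h1 : v 1 ≠ 0 := by
        intro h1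
        apply hv
        funext i
        fin_cases i
        · exact h0
        · exact h1
      have hw0 : w 0 = 0 := by
        rw [h0, zero_mul, zero_sub, neg_eq_zero] at hdet
        exact (mul_eq_zero.mp hdet).resolve_left h1
      refine ⟨w 1 / v 1, ?_⟩
      funext i
      fin_cases i
      · show w 0 = w 1 / v 1 * v 0
        rw [h0, hw0, mul_zero]
      · show w 1 = w 1 / v 1 * v 1
        rw [div_mul_cancel₀ _ h1]
    · refine ⟨w 0 / v 0, ?_⟩
      funext i
      fin_cases i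
      · show w 0 = w 0 / v 0 * v 0
        rw [div_mul_cancel₀ _ h0]
      · show w 1 = w 0 / v 0 * v 1
        have : v 0 * w 1 = v 1 * w 0 := sub_eq_zero.mp hdet
        rw [div_mul_eq_mul_div, eq_div_iff h0]
        linear_combination this
  · right
    intro x
    refine ⟨(x 0 * w 1 - x 1 * w 0) / (v 0 * w 1 - v 1 * w 0),
      (v 0 * x 1 - v 1 * x 0) / (v 0 * w 1 - v 1 * w 0), ?_⟩
    funext i
    fin_cases i
    · show x 0 = (x 0 * w 1 - x 1 * w 0) / (v 0 * w 1 - v 1 * w 0) * v 0 +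
        (v 0 * x 1 - v 1 * x 0) / (v 0 * w 1 - v 1 * w 0) * w 0
      rw [div_mul_eq_mul_div, div_mul_eq_mul_div, ← add_div, eq_div_iff hdet]
      ring
    · show x 1 = (x 0 * w 1 - x 1 * w 0) / (v 0 * w 1 - v 1 * w 0) * v 1 +
        (v 0 * x 1 - v 1 * x 0) / (v 0 * w 1 - v 1 * w 0) * w 1
      rw [div_mul_eq_mul_div, div_mul_eq_mul_div, ← add_div, eq_div_iff hdet]
      ring

/-- A line is not all of `k²`. -/
theorem exists_not_smul (v : Fin 2 → k) : ∃ x : Fin 2 → k, ∀ a : k, x ≠ a • v := by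
  by_cases h0 : v 0 = 0
  · refine ⟨![1, 0], fun a h => ?_⟩
    have := congrFun h 0
    simp [h0] at this
  · refine ⟨![0, 1], fun a h => ?_⟩
    have h1 := congrFun h 0
    have h2 := congrFun h 1
    simp only [Matrix.cons_val_zero, Pi.smul_apply, smul_eq_mul] at h1
    have ha : a = 0 := (mul_eq_zero.mp h1.symm).resolve_right h0
    simp [ha] at h2

/-- `ε • w = ε·(constant term of w)`. -/
theorem inr_smul (s : k) (w : Fin 2 → DualNumber k) :
    (TrivSqZeroExt.inr s : DualNumber k) • w = epsV (s • fstV w) := by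
  apply ext_fst_snd
  · rw [fstV_smul, fstV_epsV, TrivSqZeroExt.fst_inr, zero_smul]
  · rw [sndV_smul, sndV_epsV, TrivSqZeroExt.fst_inr, TrivSqZeroExt.snd_inr, zero_smul, zero_add]

end RankAux

open RankAux

/-- **(Rank).** The connected component of a `k[ε]`-stable order on `k[ε]²` (lifted action) whose
`ε`-part is the ordinary line `k·v0` is free of rank one over `k[ε]`, generated by a lift of
`v0`. -/
theorem rank [Finite k] {rb : GQ →* Mat2 k} {p : ℕ} [Fact p.Prime] (hp2 : p ≠ 2)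
    (h : ResidualHyp rb p) {P : ValuationSubring Qb} (hP : P.LiesOverPrime p)
    {c : GQ → Mat2 k} {B : Subalgebra P ((Fin 2 → DualNumber k) → Qb)}
    (hB : IsPOrder P ⊤ (liftAct rb c) B)
    (hstab : ∀ (a : DualNumber k), ∀ f ∈ B, (fun v => f (a • v)) ∈ B)
    {v0 : Fin 2 → k} (hv0 : OrdShape rb P v0)
    (hbar : ∀ v : Fin 2 → k, epsV v ∈ hB.conn ↔ ∃ a : k, v = a • v0) :
    ∃ u : Fin 2 → k, ∀ w, w ∈ hB.conn ↔ ∃ a : DualNumber k, w = a • (inlV v0 + epsV u) := by
  -- `W = conn` is a `k[ε]`-submodule, `D`-stable, with `I` trivial on the quotient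
  have hsm : ∀ (a : DualNumber k) (w : Fin 2 → DualNumber k), w ∈ hB.conn → a • w ∈ hB.conn :=
    fun a w hw => hB.map_mem_conn (j := fun v => a • v) (smul_zero a) (hstab a) hw
  have hD : ∀ σ ∈ P.decompositionSubgroup ℚ, ∀ w ∈ hB.conn, liftAct rb c σ w ∈ hB.conn :=
    fun σ hσ w hw => hB.act_mem_conn (Subgroup.mem_top σ)
      (fun x hx => Fermat.Agent.PT.G.apply_mem_nonunits_of_mem_decompositionSubgroup P hσ hx)
      (liftAct_zero rb c σ) hw
  have hI : ∀ σ ∈ P.inertiaSubgroupIn ℚ, ∀ w, liftAct rb c σ w - w ∈ hB.conn :=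
    fun σ hσ w => hB.act_sub_mem_conn (Subgroup.mem_top σ)
      (fun x hx => Loc.Basic.inertiaRes P σ hσ x hx) w
  -- the image `Wbar` of `W` in `k²`
  let Wbar : Set (Fin 2 → k) := {v | ∃ w ∈ hB.conn, fstV w = v}
  have hWadd : ∀ v v', v ∈ Wbar → v' ∈ Wbar → v + v' ∈ Wbar := by
    rintro v v' ⟨w, hw, rfl⟩ ⟨w', hw', rfl⟩
    exact ⟨w + w', hB.conn.add_mem hw hw', fstV_add w w'⟩
  have hWsmul : ∀ (a : k) v, v ∈ Wbar → a • v ∈ Wbar := by
    rintro a v ⟨w, hw, rfl⟩
    exact ⟨(TrivSqZeroExt.inl a : DualNumber k) • w, hsm _ w hw, fstV_smul_inl a w⟩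
  have hWD : ∀ σ ∈ P.decompositionSubgroup ℚ, ∀ v ∈ Wbar, (rb σ).mulVec v ∈ Wbar := by
    rintro σ hσ v ⟨w, hw, rfl⟩
    exact ⟨liftAct rb c σ w, hD σ hσ w hw, fstV_liftAct rb c σ w⟩
  have hWI : ∀ σ ∈ P.inertiaSubgroupIn ℚ, ∀ v : Fin 2 → k, (rb σ).mulVec v - v ∈ Wbar := by
    intro σ hσ v
    refine ⟨liftAct rb c σ (inlV v) - inlV v, hI σ hσ (inlV v), ?_⟩
    rw [fstV_sub, fstV_liftAct, fstV_inlV]
  -- `Wbar ≠ 0`
  obtain ⟨v1, hv1W, hv10⟩ : ∃ v1 ∈ Wbar, v1 ≠ 0 := by
    by_contra hcon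
    push Not at hcon
    obtain ⟨σ, hσ, hdet⟩ := StrictOrd.exists_inertia_det_ne_one rb p hp2 h P hP
    apply hdet
    have hfix : ∀ w : Fin 2 → k, (rb σ).mulVec w = w := fun w =>
      sub_eq_zero.mp (hcon _ (hWI σ hσ w))
    have h1' : rb σ = 1 := by
      apply Matrix.toLin'.injective
      refine LinearMap.ext fun w => ?_
      rw [Matrix.toLin'_apply, hfix w, Matrix.toLin'_one, LinearMap.id_apply]
    rw [h1', Matrix.det_one]
  -- `Wbar ⊆ k·v1`
  have hline : ∀ v ∈ Wbar, ∃ a : k, v = a • v1 := by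
    intro v hv
    rcases exists_smul_or_span v1 v hv10 with hc | hspan
    · exact hc
    · exfalso
      obtain ⟨x, hx⟩ := exists_not_smul v0
      obtain ⟨a, b, hab⟩ := hspan x
      have hxW : x ∈ Wbar := by
        rw [hab]
        exact hWadd _ _ (hWsmul a v1 hv1W) (hWsmul b v hv)
      obtain ⟨w, hw, hwx⟩ := hxW
      have h1 : epsV x ∈ hB.conn := by
        have h2 := hsm (TrivSqZeroExt.inr 1 : DualNumber k) w hw
        rwa [inr_smul, one_smul, hwx] at h2
      obtain ⟨a', ha'⟩ := (hbar x).mp h1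
      exact hx a' ha'
  -- `k·v1` has the ordinary shape, hence is `k·v0`
  have hshape : OrdShape rb P v1 :=
    ⟨hv10, fun σ hσ => hline _ (hWD σ hσ v1 hv1W), fun σ hσ w => hline _ (hWI σ hσ w)⟩
  obtain ⟨a1, ha1, hv1⟩ := ordUnique k rb p hp2 h P hP v0 v1 hv0 hshape
  have hv0W : v0 ∈ Wbar := by
    have h2 := hWsmul a1⁻¹ v1 hv1W
    rwa [hv1, smul_smul, inv_mul_cancel₀ ha1, one_smul] at h2
  obtain ⟨wt, hwt, hwt0⟩ := hv0W
  refine ⟨sndV wt, fun w => ⟨fun hw => ?_, ?_⟩⟩
  · have hgen : inlV v0 + epsV (sndV wt) = wt := by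
      rw [← hwt0]
      exact (eq_inlV_add_epsV wt).symm
    rw [hgen]
    -- constant term of `w`
    obtain ⟨b, hb⟩ := hline (fstV w) ⟨w, hw, rfl⟩
    set t : k := b * a1 with ht
    have hfw : fstV w = t • v0 := by rw [hb, hv1, smul_smul]
    set w' : Fin 2 → DualNumber k := w - (TrivSqZeroExt.inl t : DualNumber k) • wt with hw'
    have hw'W : w' ∈ hB.conn := hB.conn.sub_mem hw (hsm _ wt hwt)
    have hw'0 : fstV w' = 0 := by
      rw [hw', fstV_sub, fstV_smul_inl, hwt0, hfw, sub_self]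
    have hw'eps : w' = epsV (sndV w') := by
      have h2 := eq_inlV_add_epsV w'
      rw [hw'0] at h2
      have h3 : inlV (0 : Fin 2 → k) = 0 := by
        apply ext_fst_snd
        · rw [fstV_inlV, fstV_zero]
        · rw [sndV_inlV, sndV_zero]
      rwa [h3, zero_add] at h2
    obtain ⟨s, hs⟩ := (hbar (sndV w')).mp (by rw [← hw'eps]; exact hw'W)
    refine ⟨TrivSqZeroExt.inl t + TrivSqZeroExt.inr s, ?_⟩
    rw [add_smul, inr_smul, hwt0, ← hs, ← hw'eps, hw']
    abel
  · rintro ⟨a, rfl⟩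
    have hgen : inlV v0 + epsV (sndV wt) = wt := by
      rw [← hwt0]
      exact (eq_inlV_add_epsV wt).symm
    rw [hgen]
    exact hsm a wt hwt

end

end Fermat.Agent.TW.Flat.Ord
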