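import Fermat.Agent.TW.Flat.Ord.Defs

/-!
# FLAT (reducible case): scalar-stable orders

* `exists_stable_order` : the `P`-order of a flat lift on `k[ε]²` can be enlarged to one which is
  stable under all scalar multiplications `v ↦ a • v`, `a ∈ k[ε]` (including non-units);
* `bar_order` : such an order induces, through `epsV : v ↦ ε·v`, a `P`-order on `k²` with the
  action of `rb`, stable under all scalar multiplications by `k`.

(`epsV`, `liftAct_epsV`, `liftAct_smul`, `smul_epsV` are those of `TW/Flat/Ord/Defs.lean`.)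
-/

set_option autoImplicit false

namespace Fermat.Agent.TW.Flat.Ord

open Fermat.Agent.S53 Fermat.Agent.TW Fermat.Agent.Lib.FinFlat Fermat.Agent.TW.Flat

local notation "Qb" => AlgebraicClosure ℚ

variable {k : Type} [Field k]

/-- **Scalar-stable order.**  The order of a flat lift can be chosen stable under all the maps
`v ↦ a • v`, `a ∈ k[ε]`. -/
theorem exists_stable_order [Finite k] {rb : GQ →* Mat2 k} {P : ValuationSubring Qb}
    {c : GQ → Mat2 k} (h : FlatOrder rb P c) :
    ∃ B : Subalgebra P ((Fin 2 → DualNumber k) → Qb), IsPOrder P ⊤ (liftAct rb c) B ∧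
      ∀ (a : DualNumber k), ∀ f ∈ B, (fun v => f (a • v)) ∈ B := by
  obtain ⟨B, hB⟩ := h
  obtain ⟨B', hB', -, hst⟩ := hB.exists_saturation
    (Set.range fun (a : DualNumber k) (v : Fin 2 → DualNumber k) => a • v)
    (by
      rintro _ ⟨a, rfl⟩ _ ⟨b, rfl⟩
      exact ⟨a * b, funext fun v => mul_smul a b v⟩)
    (by rintro _ ⟨a, rfl⟩ v w; exact smul_add a v w)
    (by rintro _ ⟨a, rfl⟩ σ _ v; exact (liftAct_smul rb c σ a v).symm)
  exact ⟨B', hB', fun a f hf => hst _ ⟨a, rfl⟩ f hf⟩

/-- **The induced order on `k²`.**  A scalar-stable order of a flat lift induces, through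
`v ↦ ε·v`, a `P`-order on `k²` with the action of `rb`, stable under the scalars of `k`. -/
theorem bar_order {rb : GQ →* Mat2 k} {P : ValuationSubring Qb} {c : GQ → Mat2 k}
    {B : Subalgebra P ((Fin 2 → DualNumber k) → Qb)} (hB : IsPOrder P ⊤ (liftAct rb c) B)
    (hst : ∀ (a : DualNumber k), ∀ f ∈ B, (fun v => f (a • v)) ∈ B) :
    IsPOrder P ⊤ (fun σ v => (rb σ).mulVec v) (B.map (compHom P (epsV (k := k)))) ∧
      ∀ (a : k), ∀ f ∈ B.map (compHom P (epsV (k := k))),
        (fun v => f (a • v)) ∈ B.map (compHom P (epsV (k := k))) := by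
  refine ⟨hB.pullback epsV epsV_add epsV_injective
    (fun σ _ v => (liftAct_epsV rb c σ v).symm), ?_⟩
  rintro a _ ⟨f, hf, rfl⟩
  refine ⟨fun w => f ((TrivSqZeroExt.inl a : DualNumber k) • w), hst _ f hf, ?_⟩
  funext v
  show f ((TrivSqZeroExt.inl a : DualNumber k) • epsV v) = f (epsV (a • v))
  rw [smul_epsV, TrivSqZeroExt.fst_inl]

/-- The same with the action written `barAct rb`. -/
theorem bar_order' {rb : GQ →* Mat2 k} {P : ValuationSubring Qb} {c : GQ → Mat2 k}
    {B : Subalgebra P ((Fin 2 → DualNumber k) → Qb)} (hB : IsPOrder P ⊤ (liftAct rb c) B)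
    (hst : ∀ (a : DualNumber k), ∀ f ∈ B, (fun v => f (a • v)) ∈ B) :
    IsPOrder P ⊤ (barAct rb) (B.map (compHom P (epsV (k := k)))) ∧
      ∀ (a : k), ∀ f ∈ B.map (compHom P (epsV (k := k))),
        (fun v => f (a • v)) ∈ B.map (compHom P (epsV (k := k))) :=
  bar_order hB hst

/-- A flat lift gives a scalar-stable `P`-order on `k[ε]²` together with the induced
scalar-stable `P`-order on `k²`. -/
theorem exists_stable_orders [Finite k] {rb : GQ →* Mat2 k} {P : ValuationSubring Qb}
    {c : GQ → Mat2 k} (h : FlatOrder rb P c) :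
    ∃ B : Subalgebra P ((Fin 2 → DualNumber k) → Qb), IsPOrder P ⊤ (liftAct rb c) B ∧
      (∀ (a : DualNumber k), ∀ f ∈ B, (fun v => f (a • v)) ∈ B) ∧
      IsPOrder P ⊤ (barAct rb) (B.map (compHom P (epsV (k := k)))) ∧
      ∀ (a : k), ∀ f ∈ B.map (compHom P (epsV (k := k))),
        (fun v => f (a • v)) ∈ B.map (compHom P (epsV (k := k))) := by
  obtain ⟨B, hB, hst⟩ := exists_stable_order h
  exact ⟨B, hB, hst, bar_order' hB hst⟩

/-! ### Transport along `1 + εX` (change of the cocycle by a coboundary) -/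

open Fermat.Agent.TW.StrictOrd

/-- The unipotent map `1 + εX` of `k[ε]²`. -/
def epsShear (X : Mat2 k) (w : Fin 2 → DualNumber k) : Fin 2 → DualNumber k :=
  w + epsV (X.mulVec (fstV w))

theorem epsShear_apply (X : Mat2 k) (w : Fin 2 → DualNumber k) :
    epsShear X w = w + epsV (X.mulVec (fstV w)) := rfl

theorem fstV_epsShear (X : Mat2 k) (w : Fin 2 → DualNumber k) :
    fstV (epsShear X w) = fstV w := by
  rw [epsShear, fstV_add, fstV_epsV, add_zero]

theorem sndV_epsShear (X : Mat2 k) (w : Fin 2 → DualNumber k) :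
    sndV (epsShear X w) = sndV w + X.mulVec (fstV w) := by
  rw [epsShear, sndV_add, sndV_epsV]

theorem epsShear_add (X : Mat2 k) (v w : Fin 2 → DualNumber k) :
    epsShear X (v + w) = epsShear X v + epsShear X w := by
  apply ext_fst_snd
  · rw [fstV_epsShear, fstV_add, fstV_add, fstV_epsShear, fstV_epsShear]
  · rw [sndV_epsShear, sndV_add, sndV_add, sndV_epsShear, sndV_epsShear, fstV_add,
      Matrix.mulVec_add]
    abel

theorem epsShear_zero (X : Mat2 k) : epsShear X (0 : Fin 2 → DualNumber k) = 0 := by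
  apply ext_fst_snd
  · rw [fstV_epsShear]
  · rw [sndV_epsShear, fstV_zero, sndV_zero, Matrix.mulVec_zero, add_zero]

theorem epsShear_injective (X : Mat2 k) : Function.Injective (epsShear X) := by
  intro v w h
  have h1 : fstV v = fstV w := by
    have := congrArg fstV h
    rwa [fstV_epsShear, fstV_epsShear] at this
  have h2 := congrArg sndV h
  rw [sndV_epsShear, sndV_epsShear, h1] at h2
  exact ext_fst_snd h1 (add_right_cancel h2)

theorem epsShear_smul (X : Mat2 k) (a : DualNumber k) (w : Fin 2 → DualNumber k) :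
    epsShear X (a • w) = a • epsShear X w := by
  rw [epsShear, epsShear, smul_add, smul_epsV, fstV_smul, Matrix.mulVec_smul]

/-- `(1 + εX) · lift(c + ∂X) = lift(c) · (1 + εX)`. -/
theorem epsShear_liftAct (rb : GQ →* Mat2 k) (c : GQ → Mat2 k) (X : Mat2 k) (σ : GQ)
    (w : Fin 2 → DualNumber k) :
    epsShear X (liftAct rb (c + cob rb 1 X) σ w) = liftAct rb c σ (epsShear X w) := by
  have hinv : rb σ⁻¹ * rb σ = 1 := by rw [← map_mul, inv_mul_cancel, map_one]
  have hM : (c + cob rb 1 X) σ * rb σ + X * rb σ = c σ * rb σ + rb σ * X := by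
    rw [Pi.add_apply, cob_apply, adAct_apply, MonoidHom.one_apply, Units.val_one, one_smul,
      add_mul, sub_mul, mul_assoc (rb σ * X), hinv, mul_one]
    abel
  apply ext_fst_snd
  · rw [fstV_epsShear, fstV_liftAct, fstV_liftAct, fstV_epsShear]
  · rw [sndV_epsShear, sndV_liftAct, fstV_liftAct, sndV_liftAct, sndV_epsShear, fstV_epsShear,
      Matrix.mulVec_add, Matrix.mulVec_mulVec, Matrix.mulVec_mulVec, add_assoc, add_assoc,
      ← Matrix.add_mulVec, ← Matrix.add_mulVec, hM, add_comm (c σ * rb σ)]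

/-- **Transport of a scalar-stable order along `1 + εX`**: changing the cocycle by the coboundary
of `X` changes the order by pull-back along `w ↦ w + ε·X w̄`, and the connected component
accordingly. -/
theorem transport_order [Finite k] {rb : GQ →* Mat2 k} {P : ValuationSubring Qb}
    {c : GQ → Mat2 k} {B : Subalgebra P ((Fin 2 → DualNumber k) → Qb)}
    (hB : IsPOrder P ⊤ (liftAct rb c) B)
    (hstab : ∀ (a : DualNumber k), ∀ f ∈ B, (fun v => f (a • v)) ∈ B) (X : Mat2 k) :
    ∃ (B' : Subalgebra P ((Fin 2 → DualNumber k) → Qb))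
      (hB' : IsPOrder P ⊤ (liftAct rb (c + cob rb 1 X)) B'),
      (∀ (a : DualNumber k), ∀ f ∈ B', (fun v => f (a • v)) ∈ B') ∧
      ∀ w, w ∈ hB'.conn ↔ w + epsV (X.mulVec (fstV w)) ∈ hB.conn := by
  have hB' : IsPOrder P ⊤ (liftAct rb (c + cob rb 1 X)) (B.map (compHom P (epsShear X))) :=
    hB.pullback (epsShear X) (epsShear_add X) (epsShear_injective X)
      (fun σ _ w => epsShear_liftAct rb c X σ w)
  refine ⟨_, hB', ?_, ?_⟩
  · rintro a _ ⟨f, hf, rfl⟩
    refine ⟨fun w => f (a • w), hstab a f hf, ?_⟩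
    funext v
    show f (a • epsShear X v) = f (epsShear X (a • v))
    rw [epsShear_smul]
  · intro w
    rw [IsPOrder.mem_conn_iff, IsPOrder.mem_conn_iff]
    constructor
    · intro h f hf
      have h1 := h (compHom P (epsShear X) f) ⟨f, hf, rfl⟩
      rw [compHom_apply, compHom_apply, epsShear_zero] at h1
      exact h1
    · rintro h _ ⟨f, hf, rfl⟩
      have h1 := h f hf
      show f (epsShear X w) - f (epsShear X 0) ∈ P.nonunits
      rw [epsShear_zero]
      exact h1

end Fermat.Agent.TW.Flat.Ord
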