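/-
TW-FLAT, row 321 (FLAT-ORD-CONTAIN): the shape of `rb` from a `k`-stable order on `k²`.

`shape` : let `B` be a `P`-order on `k²` (action of `rb`, `P` over `p > 2`), stable under the
scalars of `k`, and assume that `rb|D` has a stable line.  Then the connected component of `B`
is a line `k·v0`, and `rb` has the ordinary shape for `v0`.  The input (RAY) is a hypothesis.
-/
import Mathlib
import Fermat.Agent.TW.Flat.Ord.Lin
import Fermat.Agent.Lib.FinFlat.Mult
import Fermat.Agent.PT.G.CycloField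

set_option autoImplicit false
set_option linter.unusedSectionVars false

namespace Fermat.Agent.TW.Flat.Ord

open Fermat.Agent.S53 Fermat.Agent.TW Fermat.Agent.Lib.FinFlat Fermat.Agent.TW.Flat
open Fermat.Agent.TW.StrictOrd Fermat.Agent.TW.TangentLift

local notation "Qb" => AlgebraicClosure ℚ

variable {k : Type} [Field k]

/-- `det (M v, M w) = det M · det (v, w)`. -/
theorem vperp_mulVec_dotProduct (M : Mat2 k) (v w : Fin 2 → k) :
    vperp (M.mulVec v) ⬝ᵥ M.mulVec w = M.det * (vperp v ⬝ᵥ w) := by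
  simp only [dotProduct, Fin.sum_univ_two, vperp_zero, vperp_one, Matrix.mulVec,
    Matrix.det_fin_two]
  ring

theorem vperp_smul (x : k) (v : Fin 2 → k) : vperp (x • v) = x • vperp v := by
  funext i
  fin_cases i
  · show -(x • v) 1 = x * -v 1
    rw [Pi.smul_apply, smul_eq_mul, mul_neg]
  · rfl

/-- If `M v = (det M) v` with `v ≠ 0`, `M` invertible, then `M` is trivial on `k² / k·v`. -/
theorem exists_sub_eq_smul_of_mulVec_eq_det {M : Mat2 k} {v : Fin 2 → k} (hv : v ≠ 0)
    (hdet : M.det ≠ 0) (hM : M.mulVec v = M.det • v) (w : Fin 2 → k) :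
    ∃ a : k, M.mulVec w - w = a • v := by
  apply exists_smul_of_vperp_dotProduct_eq_zero hv
  have h1 := vperp_mulVec_dotProduct M v w
  rw [hM, vperp_smul, smul_dotProduct, smul_eq_mul] at h1
  have h2 := mul_left_cancel₀ hdet h1
  rw [dotProduct_sub, h2, sub_self]

/-- The line `k·v` as an additive subgroup. -/
def lineSub (v : Fin 2 → k) : AddSubgroup (Fin 2 → k) where
  carrier := {w | ∃ t : k, w = t • v}
  zero_mem' := ⟨0, (zero_smul k v).symm⟩
  add_mem' := by
    rintro _ _ ⟨s, rfl⟩ ⟨t, rfl⟩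
    exact ⟨s + t, (add_smul s t v).symm⟩
  neg_mem' := by
    rintro _ ⟨s, rfl⟩
    exact ⟨-s, (neg_smul s v).symm⟩

theorem mem_lineSub (v w : Fin 2 → k) : w ∈ lineSub v ↔ ∃ t : k, w = t • v := Iff.rfl

/-- Averaging along the line `k·v`. -/
noncomputable def avgLine (v : Fin 2 → k) [Fintype (lineSub v)] (f : (Fin 2 → k) → Qb)
    (w : Fin 2 → k) : Qb :=
  (∑ u : lineSub v, f (w + u)) / (Fintype.card (lineSub v) : Qb)

theorem avgLine_sum (v : Fin 2 → k) [Fintype (lineSub v)] {n : ℕ} (c : Fin n → Qb)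
    (g : Fin n → (Fin 2 → k) → Qb) (w : Fin 2 → k) :
    avgLine v (∑ i, c i • g i) w = ∑ i, c i * avgLine v (g i) w := by
  unfold avgLine
  simp only [Finset.sum_apply, Pi.smul_apply, smul_eq_mul]
  rw [Finset.sum_comm, Finset.sum_div]
  refine Finset.sum_congr rfl fun i _ => ?_
  rw [← Finset.mul_sum, mul_div_assoc]

/-- The key contradiction: the connected component cannot be everything if inertia acts on a
line through the cyclotomic character. -/
theorem false_of_conn_top_of_cyclo [Finite k] {rb : GQ →* Mat2 k} {p : ℕ} [Fact p.Prime]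
    (hp2 : p ≠ 2) (h : ResidualHyp rb p) {P : ValuationSubring Qb} (hP : P.LiesOverPrime p)
    {B : Subalgebra P ((Fin 2 → k) → Qb)} (hB : IsPOrder P ⊤ (barAct rb) B)
    (htop : ∀ w, w ∈ hB.conn) {v : Fin 2 → k} (hv : v ≠ 0)
    (hcyc : ∀ σ ∈ P.inertiaSubgroupIn ℚ, ∀ a : ℕ, (∀ μ : Qb, μ ^ p = 1 → σ μ = μ ^ a) →
      (rb σ).mulVec v = (a : k) • v) : False := by
  classical
  have hp : p.Prime := Fact.out
  have hBI : IsPOrder P (P.inertiaSubgroupIn ℚ) (barAct rb) B := hB.mono le_top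
  let _ : Fintype (lineSub v) := Fintype.ofFinite _
  have hpW : ∀ w ∈ lineSub v, p • w = 0 := fun w _ => nsmul_vec_eq_zero h.charP w
  have hactW : ∀ σ ∈ P.inertiaSubgroupIn ℚ, ∃ a : ℕ, (∀ w ∈ lineSub v, barAct rb σ w = a • w) ∧
      ∀ ζ : Qb, ζ ^ p = 1 → σ ζ = ζ ^ a := by
    intro σ hσ
    obtain ⟨a, ha⟩ := exists_cyclo_exponent p σ
    refine ⟨a, ?_, ha⟩
    rintro _ ⟨t, rfl⟩
    rw [barAct_apply, Matrix.mulVec_smul, hcyc σ hσ a ha, smul_comm, Nat.cast_smul_eq_nsmul]
  have hstabW : ∀ σ ∈ P.inertiaSubgroupIn ℚ, ∀ w ∈ lineSub v, (rb σ).mulVec w ∈ lineSub v := by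
    intro σ hσ w hw
    obtain ⟨a, ha, -⟩ := hactW σ hσ
    have := ha w hw
    rw [barAct_apply] at this
    rw [this]
    exact (lineSub v).nsmul_mem hw a
  have hquot : ∀ σ ∈ P.inertiaSubgroupIn ℚ, ∀ w : Fin 2 → k,
      (rb σ).mulVec w - w ∈ lineSub v := by
    intro σ hσ w
    obtain ⟨a, ha⟩ := exists_cyclo_exponent p σ
    have hM : (rb σ).mulVec v = (rb σ).det • v := by rw [hcyc σ hσ a ha, h.detCyc σ a ha]
    exact exists_sub_eq_smul_of_mulVec_eq_det hv (det_rb_ne_zero rb σ) hM w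
  -- the averaging operator preserves the order
  have hE : ∀ f ∈ B, avgLine v f ∈ B := by
    intro f hf
    have h1 := hBI.proj_mem hp hp2 hP le_rfl (lineSub v) hpW hactW (1 : AddChar (lineSub v) Qb) hf
    have h2 : (fun w => (∑ u : lineSub v, (1 : AddChar (lineSub v) Qb) (-u) * f (w + u)) /
        (Fintype.card (lineSub v) : Qb)) = avgLine v f := by
      funext w
      unfold avgLine
      congr 1
      refine Finset.sum_congr rfl fun u _ => ?_
      rw [AddChar.one_apply, one_mul]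
    rwa [h2] at h1
  -- the averages of equivariant functions are fixed by inertia
  have hfix : ∀ f : (Fin 2 → k) → Qb, Equivar (P.inertiaSubgroupIn ℚ) (barAct rb) f →
      ∀ σ ∈ P.inertiaSubgroupIn ℚ, ∀ w, σ (avgLine v f w) = avgLine v f w := by
    intro f hf σ hσ w
    unfold avgLine
    rw [map_div₀, map_natCast, map_sum]
    congr 1
    let π : lineSub v → lineSub v := fun u =>
      ⟨((rb σ).mulVec w - w) + (rb σ).mulVec u,
        (lineSub v).add_mem (hquot σ hσ w) (hstabW σ hσ u u.2)⟩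
    have hπinj : Function.Injective π := by
      intro u u' huu
      have h1 : (rb σ).mulVec (u : Fin 2 → k) = (rb σ).mulVec (u' : Fin 2 → k) := by
        have := congrArg Subtype.val huu
        exact add_left_cancel this
      have h2 := congrArg (rb σ⁻¹).mulVec h1
      rw [Matrix.mulVec_mulVec, Matrix.mulVec_mulVec, rb_inv_mul_rb, Matrix.one_mulVec,
        Matrix.one_mulVec] at h2
      exact Subtype.ext h2
    have hπ : Function.Bijective π := Finite.injective_iff_bijective.mp hπinj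
    rw [← hπ.sum_comp (fun u => f (w + u))]
    refine Finset.sum_congr rfl fun u _ => ?_
    rw [← hf σ hσ (w + u), barAct_apply, Matrix.mulVec_add]
    congr 1
    show (rb σ).mulVec w + (rb σ).mulVec u = w + (((rb σ).mulVec w - w) + (rb σ).mulVec u)
    abel
  -- hence all differences of averages are divisible by `p`
  have hdiv : ∀ f ∈ B, ∀ w, ∃ t ∈ P, avgLine v f w - avgLine v f 0 = (p : Qb) * t := by
    intro f hf w
    obtain ⟨n, c, g, hg, hge, hsum⟩ := hBI.exists_eq_sum hf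
    have hi : ∀ i, ∃ t ∈ P, avgLine v (g i) w - avgLine v (g i) 0 = (p : Qb) * t := by
      intro i
      refine exists_eq_mul_of_inertia_fixed hp P hP (fun σ hσ => ?_) ?_
      · rw [map_sub, hfix (g i) (hge i) σ hσ, hfix (g i) (hge i) σ hσ]
      · exact (htop w) _ (hE _ (hg i))
    choose t ht hte using hi
    refine ⟨∑ i, (c i : Qb) * t i,
      P.toSubring.sum_mem fun i _ => P.mul_mem _ _ (c i).2 (ht i), ?_⟩
    rw [hsum, avgLine_sum, avgLine_sum, ← Finset.sum_sub_distrib, Finset.mul_sum]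
    refine Finset.sum_congr rfl fun i _ => ?_
    rw [← mul_sub, hte i]
    ring
  -- a character trivial on the line
  obtain ⟨ψ0, hψ0⟩ := exists_addChar_ne_one (V := k) (one_ne_zero)
  obtain ⟨e, he⟩ := exists_vperp_dotProduct_eq_one hv
  let φ : (Fin 2 → k) →+ k := AddMonoidHom.mk' (fun w => vperp v ⬝ᵥ w) (fun a b => dotProduct_add _ a b)
  let ψ : AddChar (Fin 2 → k) Qb := ψ0.compAddMonoidHom φ
  have hψ : ∀ w, ψ w = ψ0 (vperp v ⬝ᵥ w) := fun w => rfl
  have hψW : ∀ u : lineSub v, ψ (u : Fin 2 → k) = 1 := by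
    rintro ⟨_, t, rfl⟩
    rw [hψ, dotProduct_smul, vperp_dotProduct_self, smul_zero, AddChar.map_zero_eq_one]
  have havg : ∀ w, avgLine v ψ w = ψ w := by
    intro w
    unfold avgLine
    have h1 : ∀ u : lineSub v, ψ (w + u) = ψ w := fun u => by
      rw [AddChar.map_add_eq_mul, hψW u, mul_one]
    rw [Finset.sum_congr rfl fun u _ => h1 u, Finset.sum_const, Finset.card_univ, nsmul_eq_mul,
      mul_comm, mul_div_assoc, div_self (Nat.cast_ne_zero.mpr Fintype.card_ne_zero), mul_one]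
  obtain ⟨t, ht, hte⟩ := hdiv ψ (hB.addChar_mem' ψ) e
  rw [havg, havg, AddChar.map_zero_eq_one, hψ, he] at hte
  refine sub_one_not_mul_prime hp hp2 hP (ζ := ψ0 1) ?_ hψ0 ⟨t, ht, hte⟩
  rw [← AddChar.map_nsmul_eq_pow, nsmul_eq_mul, mul_one, h.charP, AddChar.map_zero_eq_one]

/-- The connected component is not everything. -/
theorem exists_notMem_conn [Finite k] (hRay : Ray k) {rb : GQ →* Mat2 k} {p : ℕ} [Fact p.Prime]
    (hp2 : p ≠ 2) (h : ResidualHyp rb p) {P : ValuationSubring Qb} (hP : P.LiesOverPrime p)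
    (hline : HasLine rb P) {B : Subalgebra P ((Fin 2 → k) → Qb)}
    (hB : IsPOrder P ⊤ (barAct rb) B)
    (hstab : ∀ (a : k), ∀ f ∈ B, (fun v => f (a • v)) ∈ B) : ∃ w, w ∉ hB.conn := by
  classical
  by_contra hcon
  have htop : ∀ w, w ∈ hB.conn := by
    intro w
    by_contra hw
    exact hcon ⟨w, hw⟩
  have hp : p.Prime := Fact.out
  obtain ⟨v, hv, hl⟩ := hline
  have hBI : IsPOrder P (P.inertiaSubgroupIn ℚ) (barAct rb) B := hB.mono le_top
  have hBD : IsPOrder P (P.decompositionSubgroup ℚ) (barAct rb) B := hB.mono le_top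
  let χ1 : GQ → k := fun σ =>
    if hσ : σ ∈ P.decompositionSubgroup ℚ then (hl σ hσ).choose else 0
  have hχ1 : ∀ σ ∈ P.decompositionSubgroup ℚ, (rb σ).mulVec v = χ1 σ • v := by
    intro σ hσ
    show _ = (if hσ : σ ∈ P.decompositionSubgroup ℚ then (hl σ hσ).choose else 0) • v
    rw [dif_pos hσ]
    exact (hl σ hσ).choose_spec
  -- the order induced on the line
  have hBl : IsPOrder P (P.decompositionSubgroup ℚ) (fun σ t => χ1 σ * t)
      (B.map (compHom P (fun t : k => t • v))) := by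
    refine hBD.pullback (fun t : k => t • v) (fun s t => add_smul s t v)
      (smul_left_injective k hv) (fun σ hσ t => ?_)
    show (χ1 σ * t) • v = (rb σ).mulVec (t • v)
    rw [Matrix.mulVec_smul, hχ1 σ hσ, smul_smul, mul_comm]
  have hst : ∀ a : k, a ≠ 0 → ∀ f ∈ B.map (compHom P (fun t : k => t • v)),
      (fun t => f (a * t)) ∈ B.map (compHom P (fun t : k => t • v)) := by
    rintro a - _ ⟨g, hg, rfl⟩
    refine ⟨fun w => g (a • w), hstab a g hg, ?_⟩
    funext t
    show g (a • t • v) = g ((a * t) • v)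
    rw [mul_smul]
  rcases hRay p hp2 h.charP P hP (P.decompositionSubgroup ℚ) (fun σ t => χ1 σ * t) _ hBl le_rfl
    χ1 (fun σ _ t => rfl) hst with h1 | h1
  · -- `v` would be a fixed point of inertia in the connected component
    apply hv
    refine hBI.eq_zero_of_mem_conn_of_fixed hp hp2 hP le_rfl
      (fun w => nsmul_vec_eq_zero h.charP w) (fun σ _ => Matrix.mulVec_zero _) (htop v)
      (fun σ hσ => ?_)
    rw [barAct_apply, hχ1 σ (Loc.Basic.inertia_le_decomp P hσ), h1 σ hσ, one_smul]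
  · exact false_of_conn_top_of_cyclo hp2 h hP hB htop hv (fun σ hσ a ha => by
      rw [hχ1 σ (Loc.Basic.inertia_le_decomp P hσ), h1 σ hσ a ha])

/-- The connected component is not zero. -/
theorem exists_ne_zero_mem_conn [Finite k] {rb : GQ →* Mat2 k} {p : ℕ} [Fact p.Prime]
    (hp2 : p ≠ 2) (h : ResidualHyp rb p) {P : ValuationSubring Qb} (hP : P.LiesOverPrime p)
    {B : Subalgebra P ((Fin 2 → k) → Qb)} (hB : IsPOrder P ⊤ (barAct rb) B) :
    ∃ v ∈ hB.conn, v ≠ 0 := by
  by_contra hcon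
  have hzero : ∀ v ∈ hB.conn, v = 0 := by
    intro v hv
    by_contra hv0
    exact hcon ⟨v, hv, hv0⟩
  obtain ⟨σ, hσ, hdet⟩ := exists_inertia_det_ne_one rb p hp2 h P hP
  apply hdet
  have hfix : ∀ w : Fin 2 → k, (rb σ).mulVec w = w := by
    intro w
    have := hzero _ (hB.act_sub_mem_conn (Subgroup.mem_top σ)
      (fun x hx => Loc.Basic.inertiaRes P σ hσ x hx) w)
    exact sub_eq_zero.mp this
  have h1' : rb σ = 1 := by
    apply Matrix.toLin'.injective
    refine LinearMap.ext fun w => ?_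
    rw [Matrix.toLin'_apply, hfix w, Matrix.toLin'_one, LinearMap.id_apply]
  rw [h1', Matrix.det_one]

/-- **The shape of `rb`.**  The connected component of a `k`-stable order on `k²` is a line
`k·v0`, and `rb` has the ordinary shape for `v0`. -/
theorem shape [Finite k] (hRay : Ray k) {rb : GQ →* Mat2 k} {p : ℕ} [Fact p.Prime]
    (hp2 : p ≠ 2) (h : ResidualHyp rb p) {P : ValuationSubring Qb} (hP : P.LiesOverPrime p)
    (hline : HasLine rb P) {B : Subalgebra P ((Fin 2 → k) → Qb)}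
    (hB : IsPOrder P ⊤ (barAct rb) B)
    (hstab : ∀ (a : k), ∀ f ∈ B, (fun v => f (a • v)) ∈ B) :
    ∃ v0 : Fin 2 → k, OrdShape rb P v0 ∧ ∀ v, v ∈ hB.conn ↔ ∃ a : k, v = a • v0 := by
  obtain ⟨v0, hv0U, hv0⟩ := exists_ne_zero_mem_conn hp2 h hP hB
  obtain ⟨w1, hw1⟩ := exists_notMem_conn hRay hp2 h hP hline hB hstab
  have hsmul : ∀ (a : k), ∀ v ∈ hB.conn, a • v ∈ hB.conn := fun a v hv =>
    hB.map_mem_conn (j := fun v => a • v) (smul_zero a) (hstab a) hv
  have hiff : ∀ v, v ∈ hB.conn ↔ ∃ a : k, v = a • v0 := by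
    intro v
    constructor
    · intro hv
      by_cases hd : vperp v0 ⬝ᵥ v = 0
      · exact exists_smul_of_vperp_dotProduct_eq_zero hv0 v hd
      · exfalso
        obtain ⟨a, b, hab⟩ := exists_eq_smul_add_smul hd w1
        apply hw1
        rw [hab]
        exact hB.conn.add_mem (hsmul a v0 hv0U) (hsmul b v hv)
    · rintro ⟨a, rfl⟩
      exact hsmul a v0 hv0U
  refine ⟨v0, ⟨hv0, fun σ hσ => ?_, fun σ hσ w => ?_⟩, hiff⟩
  · exact (hiff _).1 (hB.act_mem_conn (Subgroup.mem_top σ)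
      (fun x hx => Fermat.Agent.PT.G.apply_mem_nonunits_of_mem_decompositionSubgroup P hσ hx)
      (Matrix.mulVec_zero _) hv0U)
  · exact (hiff _).1 (hB.act_sub_mem_conn (Subgroup.mem_top σ)
      (fun x hx => Loc.Basic.inertiaRes P σ hσ x hx) w)

end Fermat.Agent.TW.Flat.Ord
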